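import Mathlib
import Fermat.Agent.H51.S58.Interfaces
import Fermat.Agent.H48.QCoeff

/-!
# P-S58 row 1091 (S58-STAB): stabilisation of a normalised eigenform (helper79)

`stabilisation : Fermat.Agent.H51.S58.StabilisationStatement`: a normalised eigenform `g` of
level `M` and a squarefree multiple `R` of `M` give a normalised eigenform of level `R` with the
same coefficients at the primes not dividing `R`.

One step `M → M q` (`q` prime, `q ∤ M`): `g' = α⁻¹ (U_q h - β h)`, `h` the restriction of `g` to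
`Γ₀(M q)`, `α + β = a_q(g)`, `α β = q`.  The verification is a statement about sequences
(`seq_stab`).
-/

set_option autoImplicit false

noncomputable section

namespace Fermat.Agent.H79.S58

open CongruenceSubgroup ModularFormClass UpperHalfPlane

/-! ### The arithmetic of the stabilised sequence -/

/-- Stabilisation of a "normalised eigen-sequence" of level `M` at a prime `q ∤ M`. -/
theorem seq_stab (a : ℕ → ℂ) (M q : ℕ) (hq : q.Prime) (hqM : ¬ q ∣ M)
    (h1 : a 1 = 1)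
    (hmul : ∀ m n : ℕ, m.Coprime n → a (m * n) = a m * a n)
    (hnd : ∀ p r : ℕ, p.Prime → ¬ p ∣ M →
      a (p ^ (r + 2)) = a p * a (p ^ (r + 1)) - p * a (p ^ r))
    (hd : ∀ p r : ℕ, p.Prime → p ∣ M → a (p ^ (r + 2)) = a p * a (p ^ (r + 1)))
    (α β : ℂ) (hα : α ≠ 0) (hsum : α + β = a q) (hprod : α * β = q)
    (b : ℕ → ℂ) (hb : ∀ n, b n = α⁻¹ * (a (n * q) - β * a n)) :
    b 1 = 1 ∧ (∀ m n : ℕ, m.Coprime n → b (m * n) = b m * b n) ∧
    (∀ p r : ℕ, p.Prime → ¬ p ∣ M * q →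
      b (p ^ (r + 2)) = b p * b (p ^ (r + 1)) - p * b (p ^ r)) ∧
    (∀ p r : ℕ, p.Prime → p ∣ M * q → b (p ^ (r + 2)) = b p * b (p ^ (r + 1))) ∧
    (∀ n : ℕ, n.Coprime q → b n = a n) := by
  -- coefficients prime to `q`
  have hcop : ∀ n : ℕ, n.Coprime q → b n = a n := by
    intro n hn
    rw [hb, hmul n q hn, ← hsum]
    field_simp
    ring
  have hb1 : b 1 = 1 := by rw [hcop 1 (Nat.coprime_one_left q), h1]
  -- powers of a prime different from `q`
  have hpow : ∀ p : ℕ, p.Prime → p ≠ q → ∀ k : ℕ, b (p ^ k) = a (p ^ k) := by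
    intro p hp hpq k
    exact hcop _ (Nat.Coprime.pow_left k ((Nat.coprime_primes hp hq).mpr hpq))
  -- powers of `q`
  have hcq : ∀ r : ℕ, a (q ^ (r + 2)) - β * a (q ^ (r + 1))
      = α * (a (q ^ (r + 1)) - β * a (q ^ r)) := by
    intro r
    rw [hnd q r hq hqM, ← hsum, ← hprod]
    ring
  have hbq : ∀ r : ℕ, b (q ^ r) = α⁻¹ * (a (q ^ (r + 1)) - β * a (q ^ r)) := by
    intro r
    rw [hb, ← pow_succ]
  have hbq1 : b q = α := by
    have h := hbq 1
    rw [pow_one] at h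
    have h0 := hcq 0
    have e2 : q ^ (0 + 2) = q ^ (1 + 1) := rfl
    have e3 : q ^ (0 + 1) = q := pow_one q
    rw [e2, e3, pow_zero, h1] at h0
    rw [h, h0, ← hsum]
    field_simp
    ring
  refine ⟨hb1, ?_, ?_, ?_, hcop⟩
  · -- multiplicativity
    intro m n hmn
    by_cases hqm : q ∣ m
    · have hqn : ¬ q ∣ n := fun hqn => hq.one_lt.ne' (Nat.eq_one_of_dvd_coprimes hmn hqm hqn)
      have hnq : n.Coprime q := ((Nat.Prime.coprime_iff_not_dvd hq).mpr hqn).symm
      have e1 : m * n * q = n * (m * q) := by ring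
      have e2 : m * n = n * m := mul_comm m n
      rw [hb (m * n), e1, hmul n (m * q) (Nat.Coprime.mul_right hmn.symm hnq), e2,
        hmul n m hmn.symm, hcop n hnq, hb m]
      ring
    · have hmq : m.Coprime q := ((Nat.Prime.coprime_iff_not_dvd hq).mpr hqm).symm
      have e1 : m * n * q = m * (n * q) := by ring
      rw [hb (m * n), e1, hmul m (n * q) (Nat.Coprime.mul_right hmn hmq), hmul m n hmn,
        hcop m hmq, hb n]
      ring
  · -- primes not dividing `M q`
    intro p r hp hpMq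
    have hpM : ¬ p ∣ M := fun h => hpMq (h.mul_right q)
    have hpq : p ≠ q := fun h => hpMq (h ▸ dvd_mul_left p M)
    have e1 := hpow p hp hpq 1
    rw [pow_one] at e1
    rw [hpow p hp hpq, hpow p hp hpq, hpow p hp hpq, e1]
    exact hnd p r hp hpM
  · -- primes dividing `M q`
    intro p r hp hpMq
    by_cases hpq : p = q
    · subst hpq
      rw [hbq1, hbq (r + 2), hbq (r + 1), hcq (r + 1)]
      field_simp
    · have hpM : p ∣ M := by
        rcases (Nat.Prime.dvd_mul hp).mp hpMq with h | h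
        · exact h
        · exact absurd ((Nat.prime_dvd_prime_iff_eq hp hq).mp h) hpq
      have e1 := hpow p hp hpq 1
      rw [pow_one] at e1
      rw [hpow p hp hpq, hpow p hp hpq, e1]
      exact hd p r hp hpM

/-- The two roots of `X² - c X + d` in `ℂ`. -/
theorem exists_roots (c d : ℂ) : ∃ α β : ℂ, α + β = c ∧ α * β = d := by
  obtain ⟨s, hs⟩ := IsAlgClosed.exists_pow_nat_eq (c ^ 2 - 4 * d) (n := 2) (by norm_num)
  refine ⟨(c + s) / 2, (c - s) / 2, by ring, ?_⟩
  have : (c + s) / 2 * ((c - s) / 2) = (c ^ 2 - s ^ 2) / 4 := by ring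
  rw [this, hs]
  ring

/-! ### Restriction of the level -/

theorem gamma0_le_of_dvd {M N : ℕ} (h : M ∣ N) :
    ((Gamma0 N : Subgroup (Matrix.SpecialLinearGroup (Fin 2) ℤ)) : Subgroup (GL (Fin 2) ℝ)) ≤
      ((Gamma0 M : Subgroup (Matrix.SpecialLinearGroup (Fin 2) ℤ)) : Subgroup (GL (Fin 2) ℝ)) := by
  apply Subgroup.map_mono
  intro γ hγ
  rw [CongruenceSubgroup.Gamma0_mem] at hγ ⊢
  rw [ZMod.intCast_zmod_eq_zero_iff_dvd] at hγ ⊢
  exact (Int.natCast_dvd_natCast.mpr h).trans hγ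

/-- Restriction of a cusp form to a smaller subgroup. -/
def restrictCusp {Γ Γ' : Subgroup (GL (Fin 2) ℝ)} (h : Γ' ≤ Γ) {k : ℤ}
    (f : CuspForm Γ k) : CuspForm Γ' k where
  toFun := f
  slash_action_eq' := fun γ hγ => f.slash_action_eq' γ (h hγ)
  holo' := f.holo'
  zero_at_cusps' := fun hc => f.zero_at_cusps' (hc.mono h)

@[simp]
theorem coe_restrictCusp {Γ Γ' : Subgroup (GL (Fin 2) ℝ)} (h : Γ' ≤ Γ) {k : ℤ}
    (f : CuspForm Γ k) : ⇑(restrictCusp h f) = ⇑f := rfl

/-! ### One step -/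

/-- **One step of stabilisation**, `M → M q`. -/
theorem stab_step (M q : ℕ) (hM : M ≠ 0) (hq : q.Prime) (hqM : ¬ q ∣ M)
    (g : CuspForm (Gamma0 M) 2) (hg : g.IsNormalizedEigenform) :
    ∃ g' : CuspForm (Gamma0 (M * q)) 2, g'.IsNormalizedEigenform ∧
      ∀ n : ℕ, n.Coprime q → qCoeff ⇑g' n = qCoeff ⇑g n := by
  have : NeZero (M * q) := ⟨mul_ne_zero hM hq.ne_zero⟩
  obtain ⟨α, β, hsum, hprod⟩ := exists_roots (qCoeff ⇑g q) (q : ℂ)
  have hα : α ≠ 0 := by
    rintro rfl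
    rw [zero_mul] at hprod
    exact hq.ne_zero (by exact_mod_cast hprod.symm)
  let h : CuspForm (Gamma0 (M * q)) 2 := restrictCusp (gamma0_le_of_dvd (dvd_mul_right M q)) g
  let g' : CuspForm (Gamma0 (M * q)) 2 :=
    α⁻¹ • (CuspForm.heckeULin 2 (dvd_mul_left q M) h - β • h)
  have hb : ∀ n, qCoeff ⇑g' n = α⁻¹ * (qCoeff ⇑g (n * q) - β * qCoeff ⇑g n) := by
    intro n
    change qCoeff ⇑(α⁻¹ • (CuspForm.heckeULin 2 (dvd_mul_left q M) h - β • h)) n = _
    rw [Fermat.Agent.H48.qCoeff_smul, Fermat.Agent.H48.qCoeff_sub,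
      Fermat.Agent.H48.qCoeff_smul, Fermat.Agent.H48.qCoeff_heckeULin hq (dvd_mul_left q M)]
    rfl
  obtain ⟨k1, k2, k3, k4, k5⟩ := seq_stab (fun n => qCoeff ⇑g n) M q hq hqM hg.qCoeff_one
    hg.qCoeff_mul_of_coprime hg.qCoeff_prime_pow_of_not_dvd hg.qCoeff_prime_pow_of_dvd
    α β hα hsum hprod (fun n => qCoeff ⇑g' n) hb
  exact ⟨g', ⟨k1, k2, k3, k4⟩, k5⟩

/-! ### The induction -/

theorem stab_aux : ∀ (k M R : ℕ) (g : CuspForm (Gamma0 M) 2), g.IsNormalizedEigenform →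
    R = M * k → Squarefree R →
    ∃ f' : CuspForm (Gamma0 R) 2, f'.IsNormalizedEigenform ∧
      ∀ ℓ : ℕ, ℓ.Prime → ¬ ℓ ∣ R → qCoeff ⇑f' ℓ = qCoeff ⇑g ℓ := by
  intro k
  induction k using Nat.strong_induction_on with
  | _ k ih =>
    intro M R g hg hR hsq
    have hR0 : R ≠ 0 := hsq.ne_zero
    have hM0 : M ≠ 0 := by
      rintro rfl
      exact hR0 (by rw [hR, zero_mul])
    have hk0 : k ≠ 0 := by
      rintro rfl
      exact hR0 (by rw [hR, mul_zero])
    by_cases hk1 : k = 1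
    · subst hk1
      rw [mul_one] at hR
      subst hR
      exact ⟨g, hg, fun _ _ _ => rfl⟩
    · -- a prime factor `q` of `k`
      obtain ⟨q, hq, hqk⟩ := Nat.exists_prime_and_dvd hk1
      obtain ⟨k', rfl⟩ := hqk
      have hk'0 : k' ≠ 0 := by
        rintro rfl
        exact hk0 (mul_zero q)
      have hlt : k' < q * k' := by
        have := hq.one_lt
        nlinarith [Nat.pos_of_ne_zero hk'0]
      have hqM : ¬ q ∣ M := by
        rintro ⟨m, rfl⟩
        have hqq : q * q ∣ R := ⟨m * k', by rw [hR]; ring⟩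
        exact hq.one_lt.ne' (Nat.isUnit_iff.mp (hsq q hqq))
      obtain ⟨g', hg', hcop⟩ := stab_step M q hM0 hq hqM g hg
      obtain ⟨f', hf', hf'c⟩ := ih k' hlt (M * q) R g' hg' (by rw [hR]; ring) hsq
      refine ⟨f', hf', fun ℓ hℓ hℓR => ?_⟩
      rw [hf'c ℓ hℓ hℓR]
      apply hcop
      have hℓq : ℓ ≠ q := by
        rintro rfl
        exact hℓR ⟨M * k', by rw [hR]; ring⟩
      exact (Nat.coprime_primes hℓ hq).mpr hℓq

/-- **P-S58 row 1091 (S58-STAB)**: stabilisation from level `M` to a squarefree multiple `R`. -/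
theorem stabilisation : Fermat.Agent.H51.S58.StabilisationStatement := by
  intro M R g hg hMR hR
  obtain ⟨k, hk⟩ := hMR
  exact stab_aux k M R g hg hk hR

end Fermat.Agent.H79.S58
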