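import Mathlib
import Fermat.Agent.H55.NodeComponent

/-!
# P-S58 row 1102 (E0DIV), part [B]: the EUCLID step on `α`-values (helper79)

`α : G → ℝ` a function on an abelian group satisfying the parallelogram law of
`Fermat.Agent.H55.alphaG_add_sub` (`{α (P + Q), α (P - Q)} = {Fp, Fm}`), with values in
`(2 η / n) ℤ_{≥ 0}` on the `n`-torsion.  If `A`, `B` are independent of order `n`
(`a A + b B = 0 → n ∣ a, b`), then some `R` of exact order `n` has `α R = 0`.

* `euclid_abstract` : the abstract statement;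
* `euclid_node` : the same for a node model `W` with `α = Fermat.Agent.H71.alpha v W`.
-/

set_option autoImplicit false

noncomputable section

namespace Fermat.Agent.H79.S58

open Fermat.Agent.H71

section Abstract

variable {G : Type*} [AddCommGroup G]

/-- Independence of a pair of `n`-torsion elements. -/
def IsIndepPair (n : ℕ) (A B : G) : Prop :=
  ∀ a b : ℤ, a • A + b • B = 0 → (n : ℤ) ∣ a ∧ (n : ℤ) ∣ b

theorem IsIndepPair.symm {n : ℕ} {A B : G} (h : IsIndepPair n A B) : IsIndepPair n B A := by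
  intro a b hab
  have := h b a (by rw [add_comm]; exact hab)
  exact ⟨this.2, this.1⟩

/-- `B ↦ B + A`. -/
theorem IsIndepPair.add_right {n : ℕ} {A B : G} (h : IsIndepPair n A B) :
    IsIndepPair n A (B + A) := by
  intro a b hab
  have e : (a + b) • A + b • B = 0 := by
    rw [← hab, smul_add, add_smul]
    abel
  obtain ⟨h1, h2⟩ := h (a + b) b e
  exact ⟨(Int.dvd_add_left h2).mp h1, h2⟩

/-- `B ↦ B - A`. -/
theorem IsIndepPair.sub_right {n : ℕ} {A B : G} (h : IsIndepPair n A B) :
    IsIndepPair n A (B - A) := by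
  intro a b hab
  have e : (a - b) • A + b • B = 0 := by
    rw [← hab, smul_sub, sub_smul]
    abel
  obtain ⟨h1, h2⟩ := h (a - b) b e
  refine ⟨?_, h2⟩
  have := Int.dvd_add h1 h2
  rwa [sub_add_cancel] at this

/-- The first element of an independent pair has exact order `n`. -/
theorem IsIndepPair.exact_left {n : ℕ} {A B : G} (h : IsIndepPair n A B) (m : ℕ)
    (hm : m • A = 0) : n ∣ m := by
  have e : (m : ℤ) • A + (0 : ℤ) • B = 0 := by
    rw [zero_smul, add_zero, natCast_zsmul, hm]
  exact Int.natCast_dvd_natCast.mp (h m 0 e).1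

theorem euclid_aux (α : G → ℝ) (η : ℝ) (hη : 0 < η) (n : ℕ) (hn : 0 < n)
    (hPL : ∀ P Q : G,
      (α (P + Q) = Fp η (α P) (α Q) ∧ α (P - Q) = Fm (α P) (α Q)) ∨
      (α (P + Q) = Fm (α P) (α Q) ∧ α (P - Q) = Fp η (α P) (α Q))) :
    ∀ (N : ℕ) (A B : G) (jA jB : ℕ), n • A = 0 → n • B = 0 → IsIndepPair n A B →
      (n : ℝ) * α A = 2 * jA * η → (n : ℝ) * α B = 2 * jB * η → jA + jB = N →
      ∃ R : G, n • R = 0 ∧ (∀ m : ℕ, m • R = 0 → n ∣ m) ∧ α R = 0 := by
  have hn' : (0 : ℝ) < n := by exact_mod_cast hn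
  intro N
  induction N using Nat.strong_induction_on with
  | _ N ih =>
    intro A B jA jB hA hB hind hjA hjB hN
    -- if one of the two values vanishes we are done
    by_cases hA0 : jA = 0
    · refine ⟨A, hA, hind.exact_left, ?_⟩
      rw [hA0] at hjA
      have : (n : ℝ) * α A = 0 := by rw [hjA]; simp
      exact (mul_eq_zero.mp this).resolve_left hn'.ne'
    by_cases hB0 : jB = 0
    · refine ⟨B, hB, hind.symm.exact_left, ?_⟩
      rw [hB0] at hjB
      have : (n : ℝ) * α B = 0 := by rw [hjB]; simp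
      exact (mul_eq_zero.mp this).resolve_left hn'.ne'
    have hjA1 : 1 ≤ jA := Nat.one_le_iff_ne_zero.mpr hA0
    have hjB1 : 1 ≤ jB := Nat.one_le_iff_ne_zero.mpr hB0
    -- the values in terms of `jA`, `jB`
    have hαA : α A = 2 * jA * η / n := by
      field_simp
      linarith
    have hαB : α B = 2 * jB * η / n := by
      field_simp
      linarith
    rcases le_total jA jB with hle | hle
    · -- `α A ≤ α B`: replace `B` by `B ± A`
      have hle' : α A ≤ α B := by
        rw [hαA, hαB]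
        have : (jA : ℝ) ≤ jB := by exact_mod_cast hle
        gcongr
      have hFm : Fm (α B) (α A) = α B - α A := by
        unfold Fm
        exact abs_of_nonneg (by linarith)
      have hval : ∀ B' : G, α B' = Fm (α B) (α A) →
          (n : ℝ) * α B' = 2 * ((jB - jA : ℕ) : ℝ) * η := by
        intro B' hB'
        rw [hB', hFm, mul_sub, hjA, hjB, Nat.cast_sub hle]
        ring
      rcases hPL B A with ⟨-, h2⟩ | ⟨h1, -⟩
      · exact ih (jA + (jB - jA)) (by omega) A (B - A) jA (jB - jA) hA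
          (by rw [smul_sub, hA, hB, sub_zero]) hind.sub_right hjA (hval _ h2) rfl
      · exact ih (jA + (jB - jA)) (by omega) A (B + A) jA (jB - jA) hA
          (by rw [smul_add, hA, hB, add_zero]) hind.add_right hjA (hval _ h1) rfl
    · -- `α B ≤ α A`: replace `A` by `A ± B`
      have hle' : α B ≤ α A := by
        rw [hαA, hαB]
        have : (jB : ℝ) ≤ jA := by exact_mod_cast hle
        gcongr
      have hFm : Fm (α A) (α B) = α A - α B := by
        unfold Fm
        exact abs_of_nonneg (by linarith)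
      have hval : ∀ A' : G, α A' = Fm (α A) (α B) →
          (n : ℝ) * α A' = 2 * ((jA - jB : ℕ) : ℝ) * η := by
        intro A' hA'
        rw [hA', hFm, mul_sub, hjA, hjB, Nat.cast_sub hle]
        ring
      rcases hPL A B with ⟨-, h2⟩ | ⟨h1, -⟩
      · exact ih ((jA - jB) + jB) (by omega) (A - B) B (jA - jB) jB
          (by rw [smul_sub, hA, hB, sub_zero]) hB hind.symm.sub_right.symm (hval _ h2) hjB rfl
      · exact ih ((jA - jB) + jB) (by omega) (A + B) B (jA - jB) jB
          (by rw [smul_add, hA, hB, add_zero]) hB hind.symm.add_right.symm (hval _ h1) hjB rfl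

/-- **EUCLID, abstract form.** -/
theorem euclid_abstract (α : G → ℝ) (η : ℝ) (hη : 0 < η) (n : ℕ) (hn : 0 < n)
    (h0 : ∀ P : G, 0 ≤ α P)
    (hPL : ∀ P Q : G,
      (α (P + Q) = Fp η (α P) (α Q) ∧ α (P - Q) = Fm (α P) (α Q)) ∨
      (α (P + Q) = Fm (α P) (α Q) ∧ α (P - Q) = Fp η (α P) (α Q)))
    (htors : ∀ P : G, n • P = 0 → ∃ j : ℤ, (n : ℝ) * α P = 2 * j * η)
    (A B : G) (hA : n • A = 0) (hB : n • B = 0)
    (hind : ∀ a b : ℤ, a • A + b • B = 0 → (n : ℤ) ∣ a ∧ (n : ℤ) ∣ b) :
    ∃ R : G, n • R = 0 ∧ (∀ m : ℕ, m • R = 0 → n ∣ m) ∧ α R = 0 := by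
  have hn' : (0 : ℝ) < n := by exact_mod_cast hn
  -- the values are nonnegative multiples of `2 η / n`
  have hnat : ∀ P : G, n • P = 0 → ∃ j : ℕ, (n : ℝ) * α P = 2 * j * η := by
    intro P hP
    obtain ⟨j, hj⟩ := htors P hP
    have hj0 : 0 ≤ j := by
      by_contra hneg
      have hneg := not_le.mp hneg
      have h1 : (j : ℝ) ≤ -1 := by exact_mod_cast Int.le_sub_one_of_lt hneg
      have h2 : 0 ≤ (n : ℝ) * α P := mul_nonneg hn'.le (h0 P)
      nlinarith
    refine ⟨j.toNat, ?_⟩
    rw [hj]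
    have : ((j.toNat : ℕ) : ℝ) = (j : ℝ) := by
      have := Int.toNat_of_nonneg hj0
      exact_mod_cast this
    rw [this]
  obtain ⟨jA, hjA⟩ := hnat A hA
  obtain ⟨jB, hjB⟩ := hnat B hB
  exact euclid_aux α η hη n hn hPL (jA + jB) A B jA jB hA hB hind hjA hjB rfl

end Abstract

section Node

variable {K : Type*} [Field K] [DecidableEq K]

/-- **EUCLID on a node model**: two independent points of order `n` give a point of exact order
`n` with `α = 0` (nonsingular reduction). -/
theorem euclid_node {v : AddVal K} {W : WeierstrassCurve K}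
    (hW : Fermat.Agent.H55.IsNodeModel W) (hd : Fermat.Agent.H55.NodeDataG v W.b₂ W.a₄)
    (n : ℕ) (hn : 0 < n) (A B : W.toAffine.Point) (hA : n • A = 0) (hB : n • B = 0)
    (hind : ∀ a b : ℤ, a • A + b • B = 0 → (n : ℤ) ∣ a ∧ (n : ℤ) ∣ b) :
    ∃ R : W.toAffine.Point, n • R = 0 ∧ (∀ m : ℕ, m • R = 0 → n ∣ m) ∧ alpha v W R = 0 :=
  euclid_abstract (alpha v W) (v.w W.a₄) hd.w_b n hn
    (fun P => Fermat.Agent.H55.alphaG_nonneg hd P)
    (fun P Q => Fermat.Agent.H55.alphaG_add_sub hW hd P Q)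
    (fun P hP => Fermat.Agent.H55.alphaG_torsion hW hd P hP) A B hA hB hind

end Node

end Fermat.Agent.H79.S58
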