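import Mathlib
import Fermat.Agent.H79.S58.Euclid

/-!
# P-S58 row 1102 (E0DIV): an independent pair of order `p ^ k` (helper79)

Pure group theory.  `G` an abelian group with `# G[p] = p²` on which `[p]` is surjective.  Then for
every `k` there are `A`, `B` with `p ^ k • A = 0`, `p ^ k • B = 0` and
`a A + b B = 0 → p ^ k ∣ a, b` (`exists_indep_pair`).  Combined with `euclid_node` this gives a
point of exact order `p ^ k` with `α = 0` on a node model (`exists_exact_order_alpha_zero`).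
-/

set_option autoImplicit false

noncomputable section

namespace Fermat.Agent.H79.S58

section Group

variable {G : Type*} [AddCommGroup G]

/-- An independent pair in `G[p]`. -/
theorem exists_indep_pair_one (p : ℕ) (hp : p.Prime)
    (hcard : Nat.card (Submodule.torsionBy ℤ G (p : ℤ)) = p ^ 2) :
    ∃ A B : G, (p : ℤ) • A = 0 ∧ (p : ℤ) • B = 0 ∧
      ∀ a b : ℤ, a • A + b • B = 0 → (p : ℤ) ∣ a ∧ (p : ℤ) ∣ b := by
  have hp1 : 1 < p := hp.one_lt
  have hfin : Finite (Submodule.torsionBy ℤ G (p : ℤ)) := by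
    apply Nat.finite_of_card_ne_zero
    rw [hcard]
    positivity
  have hmem : ∀ x : G, x ∈ Submodule.torsionBy ℤ G (p : ℤ) ↔ (p : ℤ) • x = 0 :=
    fun x => Submodule.mem_torsionBy_iff _ _
  -- a reduction step: a multiple `c • x` of a `p`-torsion element only depends on `c mod p`
  have hred : ∀ (x : G), (p : ℤ) • x = 0 → ∀ c : ℤ, c • x = (c % p) • x := by
    intro x hx c
    conv_lhs => rw [← Int.emod_add_mul_ediv c p]
    rw [add_smul, mul_comm, mul_smul, hx, smul_zero, add_zero]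
  -- a nonzero element
  obtain ⟨A, hA, hA0⟩ : ∃ A : G, (p : ℤ) • A = 0 ∧ A ≠ 0 := by
    by_contra hcon
    push Not at hcon
    have hsub : Subsingleton (Submodule.torsionBy ℤ G (p : ℤ)) := by
      refine ⟨fun x y => ?_⟩
      apply Subtype.ext
      rw [hcon x ((hmem x).mp x.2), hcon y ((hmem y).mp y.2)]
    have h1 : Nat.card (Submodule.torsionBy ℤ G (p : ℤ)) ≤ 1 := Finite.card_le_one_iff_subsingleton.mpr hsub
    rw [hcard] at h1
    nlinarith
  -- an element outside the multiples of `A`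
  obtain ⟨B, hB, hBA⟩ : ∃ B : G, (p : ℤ) • B = 0 ∧ ∀ c : ℤ, B ≠ c • A := by
    by_contra hcon
    push Not at hcon
    have hsurj : Function.Surjective
        (fun c : Fin p => (⟨((c : ℕ) : ℤ) • A, (hmem _).mpr (by
          rw [smul_comm, hA, smul_zero])⟩ : Submodule.torsionBy ℤ G (p : ℤ))) := by
      intro x
      obtain ⟨c, hc⟩ := hcon x ((hmem x).mp x.2)
      have hc0 : 0 ≤ c % p := Int.emod_nonneg c (by exact_mod_cast hp.ne_zero)
      have hc1 : c % p < p := Int.emod_lt_of_pos c (by exact_mod_cast hp.pos)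
      refine ⟨⟨(c % p).toNat, by omega⟩, ?_⟩
      apply Subtype.ext
      show (((c % p).toNat : ℕ) : ℤ) • A = x
      rw [Int.toNat_of_nonneg hc0, ← hred A hA c, hc]
    have h1 := Nat.card_le_card_of_surjective _ hsurj
    rw [hcard, Nat.card_fin] at h1
    nlinarith
  refine ⟨A, B, hA, hB, ?_⟩
  -- independence
  have key : ∀ (x : G), (p : ℤ) • x = 0 → ∀ c : ℤ, ¬ (p : ℤ) ∣ c → ∃ u : ℤ, x = u • (c • x) := by
    intro x hx c hc
    have hcop : IsCoprime c (p : ℤ) := by
      rw [isCoprime_comm]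
      exact (Nat.prime_iff_prime_int.mp hp).coprime_iff_not_dvd.mpr hc
    obtain ⟨u, w, huw⟩ := hcop
    refine ⟨u, ?_⟩
    have : x = (u * c + w * p) • x := by rw [huw, one_smul]
    rw [add_smul, mul_smul, mul_smul, hx, smul_zero, add_zero] at this
    exact this
  intro a b hab
  have hb : (p : ℤ) ∣ b := by
    by_contra hb
    obtain ⟨u, hu⟩ := key B hB b hb
    have hbB : b • B = (-a) • A := by
      rw [neg_smul]
      exact eq_neg_of_add_eq_zero_right hab
    rw [hbB, ← mul_smul] at hu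
    exact hBA _ hu
  have hbB0 : b • B = 0 := by
    obtain ⟨b', rfl⟩ := hb
    rw [mul_comm, mul_smul, hB, smul_zero]
  rw [hbB0, add_zero] at hab
  refine ⟨?_, hb⟩
  by_contra ha
  obtain ⟨u, hu⟩ := key A hA a ha
  rw [hab, smul_zero] at hu
  exact hA0 hu

/-- Iterated division by `p`. -/
theorem exists_pow_smul_eq (p : ℕ) (hdiv : ∀ P : G, ∃ Q : G, (p : ℤ) • Q = P) :
    ∀ (j : ℕ) (P : G), ∃ Q : G, ((p : ℤ) ^ j) • Q = P := by
  intro j
  induction j with
  | zero => exact fun P => ⟨P, by rw [pow_zero, one_smul]⟩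
  | succ j ih =>
    intro P
    obtain ⟨Q, hQ⟩ := ih P
    obtain ⟨Q', hQ'⟩ := hdiv Q
    exact ⟨Q', by rw [pow_succ, mul_smul, hQ', hQ]⟩

/-- **An independent pair of order `p ^ k`.** -/
theorem exists_indep_pair (p : ℕ) (hp : p.Prime)
    (hcard : Nat.card (Submodule.torsionBy ℤ G (p : ℤ)) = p ^ 2)
    (hdiv : ∀ P : G, ∃ Q : G, p • Q = P) (k : ℕ) :
    ∃ A B : G, (p ^ k) • A = 0 ∧ (p ^ k) • B = 0 ∧ IsIndepPair (p ^ k) A B := by
  rcases Nat.eq_zero_or_pos k with rfl | hk
  · exact ⟨0, 0, by simp, by simp, fun a b _ => ⟨by simp, by simp⟩⟩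
  obtain ⟨k, rfl⟩ : ∃ j, k = j + 1 := ⟨k - 1, by omega⟩
  have hdiv' : ∀ P : G, ∃ Q : G, (p : ℤ) • Q = P := by
    intro P
    obtain ⟨Q, hQ⟩ := hdiv P
    exact ⟨Q, by rw [natCast_zsmul, hQ]⟩
  obtain ⟨A₁, B₁, hA₁, hB₁, hind₁⟩ := exists_indep_pair_one p hp hcard
  obtain ⟨A, hA⟩ := exists_pow_smul_eq p hdiv' k A₁
  obtain ⟨B, hB⟩ := exists_pow_smul_eq p hdiv' k B₁
  have hAk : ((p : ℤ) ^ (k + 1)) • A = 0 := by rw [pow_succ', mul_smul, hA, hA₁]
  have hBk : ((p : ℤ) ^ (k + 1)) • B = 0 := by rw [pow_succ', mul_smul, hB, hB₁]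
  refine ⟨A, B, ?_, ?_, ?_⟩
  · have := hAk
    rwa [← Nat.cast_pow, natCast_zsmul] at this
  · have := hBk
    rwa [← Nat.cast_pow, natCast_zsmul] at this
  · intro a b hab
    -- by induction: `p ^ i ∣ a, b` for `i ≤ k + 1`
    have hstep : ∀ i : ℕ, i ≤ k + 1 → ((p : ℤ) ^ i ∣ a ∧ (p : ℤ) ^ i ∣ b) := by
      intro i
      induction i with
      | zero => exact fun _ => ⟨by simp, by simp⟩
      | succ i ih =>
        intro hi
        obtain ⟨⟨a', ha'⟩, ⟨b', hb'⟩⟩ := ih (by omega)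
        -- multiply the relation by `p ^ (k - i)`
        have hki : k = (k - i) + i := by omega
        have hrel : a' • A₁ + b' • B₁ = 0 := by
          have h1 : ((p : ℤ) ^ (k - i)) • (a • A + b • B) = 0 := by rw [hab, smul_zero]
          rw [smul_add, ← mul_smul, ← mul_smul, ha', hb'] at h1
          have e1 : (p : ℤ) ^ (k - i) * ((p : ℤ) ^ i * a') = a' * (p : ℤ) ^ k := by
            conv_rhs => rw [hki, pow_add]
            ring
          have e2 : (p : ℤ) ^ (k - i) * ((p : ℤ) ^ i * b') = b' * (p : ℤ) ^ k := by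
            conv_rhs => rw [hki, pow_add]
            ring
          rw [e1, e2, mul_smul, mul_smul, hA, hB] at h1
          exact h1
        obtain ⟨⟨a'', ha''⟩, ⟨b'', hb''⟩⟩ := hind₁ a' b' hrel
        refine ⟨⟨a'', ?_⟩, ⟨b'', ?_⟩⟩
        · rw [ha', ha'', pow_succ]
          ring
        · rw [hb', hb'', pow_succ]
          ring
    have := hstep (k + 1) le_rfl
    simpa using this

end Group

section Node

open Fermat.Agent.H71

variable {K : Type*} [Field K] [DecidableEq K]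

/-- On a node model whose group of points has `p²` points of order `p` and is `p`-divisible there
is a point of exact order `p ^ k` with `α = 0`. -/
theorem exists_exact_order_alpha_zero {v : AddVal K} {W : WeierstrassCurve K}
    (hW : Fermat.Agent.H55.IsNodeModel W) (hd : Fermat.Agent.H55.NodeDataG v W.b₂ W.a₄)
    (p : ℕ) (hp : p.Prime)
    (hcard : Nat.card (Submodule.torsionBy ℤ W.toAffine.Point (p : ℤ)) = p ^ 2)
    (hdiv : ∀ P : W.toAffine.Point, ∃ Q : W.toAffine.Point, p • Q = P) (k : ℕ) :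
    ∃ R : W.toAffine.Point, (p ^ k) • R = 0 ∧ (∀ m : ℕ, m • R = 0 → p ^ k ∣ m) ∧
      alpha v W R = 0 := by
  obtain ⟨A, B, hA, hB, hind⟩ := exists_indep_pair p hp hcard hdiv k
  exact euclid_node hW hd (p ^ k) (pow_pos hp.pos k) A B hA hB hind

/-- The same through an additive equivalence `e : G ≃+ W.Point` (e.g. the point equivalence of a
change of variables), with the hypotheses on `G`. -/
theorem exists_exact_order_alpha_zero_of_equiv {G : Type*} [AddCommGroup G]
    {v : AddVal K} {W : WeierstrassCurve K}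
    (hW : Fermat.Agent.H55.IsNodeModel W) (hd : Fermat.Agent.H55.NodeDataG v W.b₂ W.a₄)
    (e : G ≃+ W.toAffine.Point) (p : ℕ) (hp : p.Prime)
    (hcard : Nat.card (Submodule.torsionBy ℤ G (p : ℤ)) = p ^ 2)
    (hdiv : ∀ P : G, ∃ Q : G, p • Q = P) (k : ℕ) :
    ∃ P : G, (p ^ k) • P = 0 ∧ (∀ m : ℕ, m • P = 0 → p ^ k ∣ m) ∧ alpha v W (e P) = 0 := by
  obtain ⟨A, B, hA, hB, hind⟩ := exists_indep_pair p hp hcard hdiv k
  have hind' : ∀ a b : ℤ, a • e A + b • e B = 0 → ((p ^ k : ℕ) : ℤ) ∣ a ∧ ((p ^ k : ℕ) : ℤ) ∣ b := by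
    intro a b hab
    apply hind a b
    apply e.injective
    rw [map_add, map_zsmul, map_zsmul, hab, map_zero]
  obtain ⟨R, hR1, hR2, hR3⟩ := euclid_node hW hd (p ^ k) (pow_pos hp.pos k) (e A) (e B)
    (by rw [← map_nsmul, hA, map_zero]) (by rw [← map_nsmul, hB, map_zero]) hind'
  refine ⟨e.symm R, ?_, ?_, ?_⟩
  · rw [← map_nsmul, hR1, map_zero]
  · intro m hm
    apply hR2 m
    have := congrArg e hm
    rwa [map_nsmul, AddEquiv.apply_symm_apply, map_zero] at this
  · rw [AddEquiv.apply_symm_apply]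
    exact hR3

end Node

end Fermat.Agent.H79.S58
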